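import Mathlib
import Fermat.Prelude.Def_ModularCurve_X0ModL

/-!
# Extension of the coefficient field of Laurent series

A family of Laurent series over `k` which is linearly independent over `k` stays linearly
independent over any extension field `K`; consequences for degrees of fields generated by
Laurent series.
-/

set_option autoImplicit false

noncomputable section

namespace Fermat.Agent.Igusa

open ModularCurve Polynomial

section Smul

variable {k : Type*} [Field k]

theorem hsmul_eq (c : k) (x : LaurentSeries k) :
    c • x = algebraMap k (LaurentSeries k) c * x := by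
  ext n
  rw [algebraMap_laurentSeries_eq_single, HahnSeries.coeff_single_zero_mul]
  rfl

theorem coeff_algebraMap_mul (c : k) (x : LaurentSeries k) (n : ℤ) :
    (algebraMap k (LaurentSeries k) c * x).coeff n = c * x.coeff n := by
  rw [algebraMap_laurentSeries_eq_single, HahnSeries.coeff_single_zero_mul]

theorem aeval_coeff_eq_sum (x : LaurentSeries k) (g : k[X]) (m : ℤ) :
    (aeval x g).coeff m = ∑ i ∈ Finset.range (g.natDegree + 1), g.coeff i * (x ^ i).coeff m := by
  rw [aeval_eq_sum_range, HahnSeries.coeff_sum]
  refine Finset.sum_congr rfl fun i _ => ?_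
  rw [Algebra.smul_def, coeff_algebraMap_mul]

end Smul

section Lift

variable (k K : Type*) [Field k] [Field K] [Algebra k K]

/-- The coefficientwise inclusion `k((q)) → K((q))`. -/
abbrev liftK : LaurentSeries k →+* LaurentSeries K := coeffMap (algebraMap k K)

variable {k}

theorem liftK_algebraMap (c : k) :
    liftK k K (algebraMap k (LaurentSeries k) c) =
      algebraMap K (LaurentSeries K) (algebraMap k K c) := by
  rw [algebraMap_laurentSeries_eq_single, algebraMap_laurentSeries_eq_single, coeffMap_single]

theorem linearIndependent_liftK {ι : Type*} {v : ι → LaurentSeries k}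
    (hv : LinearIndependent k v) : LinearIndependent K (fun i => liftK k K (v i)) := by
  rw [linearIndependent_iff'] at hv ⊢
  intro s g hg i hi
  rw [← Module.forall_dual_apply_eq_zero_iff k]
  intro f
  refine hv s (fun i => f (g i)) ?_ i hi
  ext n
  have hn := congrArg (fun z : LaurentSeries K => z.coeff n) hg
  simp only [HahnSeries.coeff_sum, HahnSeries.coeff_smul, HahnSeries.coeff_zero, smul_eq_mul,
    coeffMap_coeff] at hn ⊢
  have hn' := congrArg f hn
  rw [map_sum, map_zero] at hn'
  rw [← hn']
  refine Finset.sum_congr rfl fun j _ => ?_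
  rw [show g j * algebraMap k K ((v j).coeff n) = (v j).coeff n • g j by
    rw [Algebra.smul_def, mul_comm], map_smul, smul_eq_mul, mul_comm]

theorem liftK_aeval (x : LaurentSeries k) (p : k[X]) :
    liftK k K (aeval x p) = aeval (liftK k K x) (p.map (algebraMap k K)) := by
  induction p using Polynomial.induction_on' with
  | add p q hp hq => simp [hp, hq]
  | monomial n c =>
    rw [Polynomial.map_monomial, aeval_monomial, aeval_monomial, map_mul, map_pow,
      liftK_algebraMap]

end Lift

section PolyIndep

variable {k : Type*} [Field k] {ι : Type*}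

/-- Independence of a family over the polynomial ring in `x`. -/
def PolyIndep (x : LaurentSeries k) (v : ι → LaurentSeries k) : Prop :=
  LinearIndependent k (fun p : ι × ℕ => x ^ p.2 * v p.1)

theorem PolyIndep.liftK {K : Type*} [Field K] [Algebra k K] {x : LaurentSeries k}
    {v : ι → LaurentSeries k} (h : PolyIndep x v) :
    PolyIndep (Fermat.Agent.Igusa.liftK k K x) (fun i => Fermat.Agent.Igusa.liftK k K (v i)) := by
  have := linearIndependent_liftK K h
  unfold PolyIndep
  simpa only [map_mul, map_pow] using this

theorem aeval_mul_eq_sum (x y : LaurentSeries k) (p : k[X]) :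
    aeval x p * y = p.sum fun n c => c • (x ^ n * y) := by
  rw [aeval_eq_sum_range, Finset.sum_mul, Polynomial.sum_over_range' p (f := fun n c => c • (x ^ n * y))
    (fun n => zero_smul _ _) (p.natDegree + 1) (Nat.lt_succ_self _)]
  refine Finset.sum_congr rfl fun n _ => ?_
  rw [hsmul_eq, Algebra.smul_def, mul_assoc]

theorem polyIndep_iff [Fintype ι] {x : LaurentSeries k} {v : ι → LaurentSeries k} :
    PolyIndep x v ↔ ∀ g : ι → k[X], ∑ i, aeval x (g i) * v i = 0 → g = 0 := by
  classical
  constructor
  · intro h g hg
    rw [PolyIndep, linearIndependent_iff'] at h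
    funext i
    refine Polynomial.ext fun n => ?_
    set M := (Finset.univ.sup fun i => (g i).natDegree) + 1 with hM
    rcases lt_or_ge n M with hn | hn
    · refine h (Finset.univ ×ˢ Finset.range M) (fun p => (g p.1).coeff p.2) ?_ (i, n) (by simp [hn])
      rw [Finset.sum_product, ← hg]
      refine Finset.sum_congr rfl fun j _ => ?_
      rw [aeval_mul_eq_sum, Polynomial.sum_over_range' (g j)
        (f := fun n c => c • (x ^ n * v j)) (fun n => zero_smul _ _) M]
      have : (g j).natDegree ≤ Finset.univ.sup fun i => (g i).natDegree :=
        Finset.le_sup (f := fun i => (g i).natDegree) (Finset.mem_univ j)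
      omega
    · rw [Pi.zero_apply, coeff_zero]
      apply coeff_eq_zero_of_natDegree_lt
      have : (g i).natDegree ≤ Finset.univ.sup fun i => (g i).natDegree :=
        Finset.le_sup (f := fun i => (g i).natDegree) (Finset.mem_univ i)
      omega
  · intro h
    rw [PolyIndep, linearIndependent_iff']
    intro s c hc p hp
    set g : ι → k[X] := fun i =>
      ∑ q ∈ s with q.1 = i, monomial q.2 (c q) with hg
    have h0 : g = 0 := by
      refine h g ?_
      rw [← hc, ← Finset.sum_fiberwise s Prod.fst]
      refine Finset.sum_congr rfl fun i _ => ?_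
      rw [hg]
      simp only
      rw [map_sum, Finset.sum_mul]
      refine Finset.sum_congr rfl fun q hq => ?_
      rw [aeval_monomial, (Finset.mem_filter.mp hq).2, hsmul_eq, mul_assoc]
    have := congrArg (fun q => q.coeff p.2) (congrFun h0 p.1)
    simp only [hg, finsetSum_coeff, Pi.zero_apply, coeff_zero] at this
    rw [Finset.sum_eq_single p] at this
    · simpa using this
    · intro q hq hne
      rw [coeff_monomial, if_neg]
      intro h2
      exact hne (Prod.ext (Finset.mem_filter.mp hq).2 h2)
    · intro h'
      exact absurd (Finset.mem_filter (p := fun q : ι × ℕ => q.1 = p.1).mpr ⟨hp, rfl⟩) h' 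

theorem aeval_mem_adjoin (x : LaurentSeries k) (g : k[X]) :
    aeval x g ∈ IntermediateField.adjoin k ({x} : Set (LaurentSeries k)) := by
  have h := IntermediateField.mem_adjoin_simple_self k x
  rw [aeval_eq_sum_range]
  exact sum_mem fun n _ => IntermediateField.smul_mem _ (pow_mem h n)

theorem polyIndep_iff_linearIndependent [Fintype ι] {x : LaurentSeries k}
    (hx : Function.Injective (aeval (R := k) x)) {v : ι → LaurentSeries k} :
    PolyIndep x v ↔
      LinearIndependent (IntermediateField.adjoin k ({x} : Set (LaurentSeries k))) v := by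
  classical
  rw [polyIndep_iff, Fintype.linearIndependent_iff]
  constructor
  · intro h c hc i
    choose r s hrs using fun j => (IntermediateField.mem_adjoin_simple_iff k _).mp (c j).2
    by_contra hi
    set J := Finset.univ.filter fun j => (c j : LaurentSeries k) ≠ 0 with hJ
    have hiJ : i ∈ J := by simpa [hJ] using hi
    have hs : ∀ j ∈ J, aeval x (s j) ≠ 0 := by
      intro j hj h0
      exact (Finset.mem_filter.mp hj).2 (by rw [hrs j, h0, div_zero])
    set g : ι → k[X] := fun j => if j ∈ J then r j * ∏ i ∈ J.erase j, s i else 0 with hg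
    have hga : ∀ j, aeval x (g j) = (∏ i ∈ J, aeval x (s i)) * c j := by
      intro j
      by_cases hj : j ∈ J
      · rw [hg]
        simp only [if_pos hj, map_mul, map_prod]
        rw [← Finset.mul_prod_erase _ _ hj, hrs j]
        have := hs j hj
        field_simp
      · have h0 : (c j : LaurentSeries k) = 0 := by simpa [hJ] using hj
        simp [hg, hj, h0]
    have hg0 : g = 0 := by
      refine h g ?_
      simp_rw [hga, mul_assoc, ← Finset.mul_sum]
      rw [show (∑ j, (c j : LaurentSeries k) * v j) = 0 from hc, mul_zero]
    have hne : (∏ i ∈ J, aeval x (s i)) * (c i : LaurentSeries k) ≠ 0 :=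
      mul_ne_zero (Finset.prod_ne_zero_iff.mpr hs) (Finset.mem_filter.mp hiJ).2
    rw [← hga i, hg0] at hne
    simp at hne
  · intro h g hg
    funext i
    have := h (fun j => ⟨aeval x (g j), aeval_mem_adjoin x (g j)⟩) hg i
    refine hx ?_
    simpa using congrArg Subtype.val this

end PolyIndep

section Degree

variable {k : Type*} [Field k] (K : Type*) [Field K] [Algebra k K]
variable {x : LaurentSeries k}

theorem liftK_mem_adjoin {y : LaurentSeries k}
    (hy : y ∈ IntermediateField.adjoin k ({x} : Set (LaurentSeries k))) :
    liftK k K y ∈ IntermediateField.adjoin K ({liftK k K x} : Set (LaurentSeries K)) := by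
  obtain ⟨r, s, rfl⟩ := (IntermediateField.mem_adjoin_simple_iff k _).mp hy
  rw [map_div₀, liftK_aeval, liftK_aeval]
  exact div_mem (aeval_mem_adjoin _ _) (aeval_mem_adjoin _ _)

/-- The degree over the line does not change when the constant field is extended. -/
theorem finrank_adjoin_liftK (hx : Function.Injective (aeval (R := k) x))
    (hxK : Function.Injective (aeval (R := K) (liftK k K x)))
    (s : Set (LaurentSeries k))
    [FiniteDimensional (IntermediateField.adjoin k ({x} : Set (LaurentSeries k)))
      (IntermediateField.adjoin (IntermediateField.adjoin k ({x} : Set (LaurentSeries k))) s)] :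
    FiniteDimensional (IntermediateField.adjoin K ({liftK k K x} : Set (LaurentSeries K)))
      (IntermediateField.adjoin (IntermediateField.adjoin K ({liftK k K x} : Set (LaurentSeries K)))
        (liftK k K '' s)) ∧
    Module.finrank (IntermediateField.adjoin K ({liftK k K x} : Set (LaurentSeries K)))
      (IntermediateField.adjoin (IntermediateField.adjoin K ({liftK k K x} : Set (LaurentSeries K)))
        (liftK k K '' s)) =
      Module.finrank (IntermediateField.adjoin k ({x} : Set (LaurentSeries k)))
        (IntermediateField.adjoin (IntermediateField.adjoin k ({x} : Set (LaurentSeries k))) s) := by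
  classical
  set B := IntermediateField.adjoin k ({x} : Set (LaurentSeries k)) with hB
  set C := IntermediateField.adjoin K ({liftK k K x} : Set (LaurentSeries K)) with hC
  set E := IntermediateField.adjoin B s with hE
  set E' := IntermediateField.adjoin C (liftK k K '' s) with hE'
  let b := Module.finBasis B E
  set w : Fin (Module.finrank B E) → LaurentSeries K := fun i => liftK k K (b i : LaurentSeries k)
    with hw
  have hbind : LinearIndependent B (fun i => (b i : LaurentSeries k)) :=
    b.linearIndependent.map' E.val.toLinearMap (LinearMap.ker_eq_bot.mpr Subtype.val_injective)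
  have hwind : LinearIndependent C w :=
    (polyIndep_iff_linearIndependent hxK).mp
      (((polyIndep_iff_linearIndependent hx).mpr hbind).liftK)
  set W := Submodule.span C (Set.range w) with hW
  have hmem : ∀ y ∈ E, liftK k K y ∈ W := by
    intro y hy
    have h := congrArg (fun z : E => (z : LaurentSeries k)) (b.sum_repr ⟨y, hy⟩)
    simp only [IntermediateField.coe_sum, IntermediateField.coe_smul] at h
    rw [← h, map_sum]
    refine sum_mem fun i _ => ?_
    rw [show (b.repr ⟨y, hy⟩ i) • (b i : LaurentSeries k) =
      (b.repr ⟨y, hy⟩ i : LaurentSeries k) * (b i : LaurentSeries k) from rfl, map_mul]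
    exact W.smul_mem (⟨_, liftK_mem_adjoin K (b.repr ⟨y, hy⟩ i).2⟩ : C)
      (Submodule.subset_span ⟨i, rfl⟩)
  have hone : (1 : LaurentSeries K) ∈ W := by simpa using hmem 1 (one_mem E)
  have hmul : ∀ a ∈ W, ∀ c ∈ W, a * c ∈ W := by
    have : W * W ≤ W := by
      rw [hW, Submodule.span_mul_span, Submodule.span_le]
      rintro _ ⟨_, ⟨i, rfl⟩, _, ⟨j, rfl⟩, rfl⟩
      simp only [hw, ← map_mul]
      exact hmem _ (mul_mem (b i).2 (b j).2)
    exact fun a ha c hc => this (Submodule.mul_mem_mul ha hc)
  let Wa : Subalgebra C (LaurentSeries K) := W.toSubalgebra hone fun a c ha hc => hmul a ha c hc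
  have hWfin : FiniteDimensional C W := Module.Finite.span_of_finite C (Set.finite_range w)
  have halg : ∀ y ∈ Wa, IsAlgebraic C y := by
    intro y hy
    have : FiniteDimensional C Wa := hWfin
    exact isAlgebraic_algHom_iff Wa.val Subtype.val_injective |>.mpr
      (Algebra.IsAlgebraic.isAlgebraic (⟨y, hy⟩ : Wa))
  have hsW : liftK k K '' s ⊆ (Wa : Set (LaurentSeries K)) := by
    rintro _ ⟨y, hy, rfl⟩
    exact hmem y (IntermediateField.subset_adjoin B s hy)
  have heq : E'.toSubalgebra = Wa := by
    refine le_antisymm ?_ ?_
    · rw [hE', IntermediateField.adjoin_toSubalgebra_of_isAlgebraic fun y hy => halg y (hsW hy)]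
      exact Algebra.adjoin_le hsW
    · change W ≤ Subalgebra.toSubmodule E'.toSubalgebra
      rw [hW, Submodule.span_le]
      rintro _ ⟨i, rfl⟩
      have : ∀ y ∈ E, liftK k K y ∈ E' := by
        intro y hy
        rw [hE] at hy
        induction hy using IntermediateField.adjoin_induction with
        | mem z hz => exact IntermediateField.subset_adjoin C _ ⟨z, hz, rfl⟩
        | algebraMap c => exact E'.algebraMap_mem ⟨_, liftK_mem_adjoin K c.2⟩
        | add a c _ _ ha hc => rw [map_add]; exact add_mem ha hc
        | inv a _ ha => rw [map_inv₀]; exact inv_mem ha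
        | mul a c _ _ ha hc => rw [map_mul]; exact mul_mem ha hc
      exact this _ (b i).2
  have hsub : Subalgebra.toSubmodule E'.toSubalgebra = W := by
    rw [heq]; exact Submodule.toSubalgebra_toSubmodule _ _ _
  constructor
  · exact Module.Finite.equiv (LinearEquiv.ofEq _ _ hsub).symm
  · rw [show Module.finrank C E' = Module.finrank C W from
      LinearEquiv.finrank_eq (LinearEquiv.ofEq _ _ hsub), hW, finrank_span_eq_card hwind,
      Fintype.card_fin]

end Degree

section JTrans

variable {k : Type*} [Field k]

theorem coeff_aeval_jqModC_neg_natDegree (g : k[X]) :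
    (aeval (jqModC k) g).coeff (-(g.natDegree : ℤ)) = g.leadingCoeff := by
  rw [aeval_coeff_eq_sum, Finset.sum_eq_single g.natDegree]
  · rw [coeff_jqModC_pow_self, mul_one]; rfl
  · intro n hn hne
    rw [coeff_jqModC_pow_of_lt, mul_zero]
    simp only [Finset.mem_range] at hn
    omega
  · intro h; simp at h

theorem coeff_aeval_jqModC_of_lt (g : k[X]) {m : ℤ} (hm : m < -(g.natDegree : ℤ)) :
    (aeval (jqModC k) g).coeff m = 0 := by
  rw [aeval_coeff_eq_sum]
  refine Finset.sum_eq_zero fun n hn => ?_
  rw [coeff_jqModC_pow_of_lt, mul_zero]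
  simp only [Finset.mem_range] at hn
  omega

theorem aeval_jqModC_injective : Function.Injective (aeval (R := k) (jqModC k)) := by
  rw [injective_iff_map_eq_zero]
  intro g hg
  by_contra h0
  have := coeff_aeval_jqModC_neg_natDegree g
  rw [hg] at this
  exact h0 (leadingCoeff_eq_zero.mp (by simpa using this.symm))

theorem transcendental_jqModC (K : Type*) [Field K] : Transcendental K (jqModC K) :=
  transcendental_iff_injective.mpr aeval_jqModC_injective

theorem liftK_jqModC (K : Type*) [Field K] [Algebra k K] : liftK k K (jqModC k) = jqModC K :=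
  coeffMap_jqModC _

theorem liftK_divisorExpansionsC (K : Type*) [Field K] [Algebra k K] (N : ℕ) :
    liftK k K '' divisorExpansionsC k N = divisorExpansionsC K N := by
  ext y
  constructor
  · rintro ⟨z, ⟨d, hd, hdN, rfl⟩, rfl⟩
    exact ⟨d, hd, hdN, by rw [coeffMap_qExpand, coeffMap_jqModC]⟩
  · rintro ⟨d, hd, hdN, rfl⟩
    exact ⟨_, ⟨d, hd, hdN, rfl⟩, by rw [coeffMap_qExpand, coeffMap_jqModC]⟩

end JTrans

end Fermat.Agent.Igusa

end
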