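import Fermat.Agent.Igusa.Transitive
import Fermat.Agent.Igusa.FullField
import Fermat.Agent.ModFun.Field

/-!
# `[K(j_d : d ∣ N) : K(j)] = [SL(2,ℤ) : Γ₀(N)]` for every field `K` in which `N ≠ 0`
-/

set_option autoImplicit false

noncomputable section

open Polynomial
open scoped MatrixGroups

namespace Fermat.Agent.Igusa

open ModularCurve Fermat.Agent.ModFun

attribute [local instance] Fintype.ofFinite

section Good

variable {k : Type*} [Field k] {V : Subring ℂ} {π : V →+* k} {N : ℕ} [NeZero N]

theorem mem_adjoin_jqN_of_qExpand_mem {x : LaurentSeries k}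
    (hx : ModularCurve.qExpand k N x ∈ IntermediateField.adjoin
      (IntermediateField.adjoin k ({jt k N} : Set (LaurentSeries k)))
      ({ModularCurve.qExpand k N (jqNModC k N)} : Set (LaurentSeries k))) :
    x ∈ IntermediateField.adjoin (jLine k) ({jqNModC k N} : Set (LaurentSeries k)) := by
  rw [← IntermediateField.mem_restrictScalars (K := k),
    IntermediateField.adjoin_simple_adjoin_simple] at hx ⊢
  have hmap : IntermediateField.adjoin k
      ({jt k N, ModularCurve.qExpand k N (jqNModC k N)} : Set (LaurentSeries k)) =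
      (IntermediateField.adjoin k ({jqModC k, jqNModC k N} : Set (LaurentSeries k))).map
        (qExpandAlgHomC k N) := by
    rw [IntermediateField.adjoin_map, Set.image_pair]
    rfl
  rw [hmap] at hx
  obtain ⟨y, hy, hyx⟩ := hx
  exact qExpand_injective N hyx ▸ hy

theorem vCusp_one (h : GoodRed N V π) :
    vCusp h ((1 : SL(2, ℤ)) : Coset N) = ModularCurve.qExpand k N (jqNModC k N) :=
  rCusp_one _ (red_qExp_jd (dvd_refl N))

theorem qExpand_jqd_mem (h : GoodRed N V π) {d : ℕ} [NeZero d] (hdN : d ∣ N) :
    ModularCurve.qExpand k N (ModularCurve.qExpand k d (jqModC k)) ∈ IntermediateField.adjoin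
      (IntermediateField.adjoin k ({jt k N} : Set (LaurentSeries k)))
      ({ModularCurve.qExpand k N (jqNModC k N)} : Set (LaurentSeries k)) := by
  have h0 : interpPoly (vCusp h) (fun c => rCusp π c ⟨jd hdN, h.jd_mem hdN⟩) ∈
      lifts (evLine k (jt k N)) :=
    interp_rCusp_mem_lifts ⟨jd hdN, h.jd_mem hdN⟩ ⟨jd (dvd_refl N), h.mem_one⟩
  have h1 := ((orbitData_univ h).interp (fun c => rCusp π c ⟨jd hdN, h.jd_mem hdN⟩) h0).1
  rw [vCusp_one h] at h1
  have h2 : rCusp π ((1 : SL(2, ℤ)) : Coset N) ⟨jd hdN, h.jd_mem hdN⟩ =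
      ModularCurve.qExpand k N (ModularCurve.qExpand k d (jqModC k)) :=
    rCusp_one _ (red_qExp_jd hdN)
  rw [← h2]
  exact h1

theorem fullOverLine_eq_adjoin_jqN (h : GoodRed N V π) :
    fullOverLine k N =
      IntermediateField.adjoin (jLine k) ({jqNModC k N} : Set (LaurentSeries k)) := by
  refine le_antisymm ?_ ?_
  · rw [IntermediateField.adjoin_le_iff]
    rintro x ⟨d, hd, hdN, rfl⟩
    have := hd
    exact mem_adjoin_jqN_of_qExpand_mem (qExpand_jqd_mem h hdN)
  · exact IntermediateField.adjoin.mono _ _ _
      (Set.singleton_subset_iff.mpr ⟨N, inferInstance, dvd_rfl, rfl⟩)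

theorem hasFullDegree_of_goodRed (h : GoodRed N V π) :
    HasFullDegree k N (Nat.card (Coset N)) := by
  classical
  obtain ⟨Q, hQmap, hQdeg, hQm⟩ := lifts_and_natDegree_eq_and_monic
    (prod_rCusp_mem_lifts (π := π) (N := N) ⟨_, h.mem_one⟩) (monic_prod_X_sub_C _ Finset.univ)
  set j0 := jqNModC k N with hj0
  let ι : k[X] →+* jLine k :=
    ((aeval (jqModC k)).toRingHom).codRestrict (jLine k).toSubfield.toSubring
      fun p => aeval_mem_adjoin (jqModC k) p
  have hroot : aeval j0 (Q.map ι) = 0 := by
    have h1 : (Q.map (evLine k (jt k N))).eval (vCusp h ((1 : SL(2, ℤ)) : Coset N)) = 0 := by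
      rw [hQmap, eval_prod]
      exact Finset.prod_eq_zero (Finset.mem_univ ((1 : SL(2, ℤ)) : Coset N)) (by simp [vCusp])
    rw [vCusp_one h, eval_map] at h1
    have h2 : (ModularCurve.qExpand k N) (aeval j0 (Q.map ι)) = 0 := by
      rw [aeval_def, eval₂_map, hom_eval₂, ← h1]
      congr 1
      exact RingHom.ext fun p => (evLine_jt p).symm
    exact qExpand_injective N (by rw [h2, map_zero])
  have hint : IsIntegral (jLine k) j0 := ⟨Q.map ι, hQm.map ι, hroot⟩
  have hcard : Fintype.card (Coset N) = Nat.card (Coset N) := Nat.card_eq_fintype_card.symm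
  refine ⟨?_, ?_⟩
  · rw [fullOverLine_eq_adjoin_jqN h]
    exact IntermediateField.adjoin.finiteDimensional hint
  rw [fullOverLine_eq_adjoin_jqN h, IntermediateField.adjoin.finrank hint]
  apply le_antisymm
  · refine (natDegree_le_of_dvd (minpoly.dvd _ _ hroot) (hQm.map ι).ne_zero).trans ?_
    refine natDegree_map_le.trans ?_
    rw [hQdeg, Polynomial.natDegree_finsetProd_X_sub_C_eq_card, Finset.card_univ, hcard]
  · set μ := minpoly (jLine k) j0 with hμ
    set B := IntermediateField.adjoin k ({jt k N} : Set (LaurentSeries k)) with hB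
    set p := μ.map ((qExpandAlgHomC k N).toRingHom.comp (algebraMap (jLine k) (LaurentSeries k)))
      with hp
    have hmap : (jLine k).map (qExpandAlgHomC k N) = B := by
      rw [IntermediateField.adjoin_map, Set.image_singleton]
      rfl
    have hlift : p ∈ lifts (algebraMap B (LaurentSeries k)) := by
      rw [lifts_iff_coeff_lifts]
      intro n
      rw [hp, coeff_map]
      refine ⟨⟨_, ?_⟩, rfl⟩
      rw [← hmap]
      exact ⟨(μ.coeff n : LaurentSeries k), (μ.coeff n).2, rfl⟩
    obtain ⟨P, hPmap, hPdeg, hPm⟩ :=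
      lifts_and_natDegree_eq_and_monic hlift ((minpoly.monic hint).map _)
    have hProot : aeval (vCusp h ((1 : SL(2, ℤ)) : Coset N)) P = 0 := by
      rw [aeval_def, ← eval_map, hPmap, hp, eval_map, vCusp_one h]
      have h3 := congrArg (qExpandAlgHomC k N).toRingHom (minpoly.aeval (jLine k) j0)
      rw [aeval_def, hom_eval₂, map_zero] at h3
      exact h3
    have hO := orbitData_univ h
    have hint' : IsIntegral B (vCusp h ((1 : SL(2, ℤ)) : Coset N)) := ⟨P, hPm, hProot⟩
    have h4 := natDegree_le_of_dvd (minpoly.dvd B _ hProot) hPm.ne_zero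
    rw [← IntermediateField.adjoin.finrank hint', hO.finrank_eq, Finset.card_univ, hcard,
      hPdeg] at h4
    exact h4.trans natDegree_map_le

end Good

section Descent

variable {k : Type*} [Field k] (K : Type*) [Field K] [Algebra k K]

theorem isAlgebraic_of_liftK {x y : LaurentSeries k} (hx : Function.Injective (aeval (R := k) x))
    (hxK : Function.Injective (aeval (R := K) (liftK k K x)))
    (hy : IsAlgebraic (IntermediateField.adjoin K ({liftK k K x} : Set (LaurentSeries K)))
      (liftK k K y)) :
    IsAlgebraic (IntermediateField.adjoin k ({x} : Set (LaurentSeries k))) y := by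
  classical
  obtain ⟨Q, hQ0, hQy⟩ := hy
  set n := Q.natDegree
  by_contra hcon
  have hind : LinearIndependent (IntermediateField.adjoin k ({x} : Set (LaurentSeries k)))
      (fun i : Fin (n + 1) => y ^ (i : ℕ)) := by
    have h := (Polynomial.basisMonomials _).linearIndependent.map' (Polynomial.aeval y).toLinearMap
      (LinearMap.ker_eq_bot_of_injective fun a b e => transcendental_iff_injective.mp hcon e)
    simpa [Function.comp_def, Polynomial.aeval_monomial] using
      h.comp (Fin.val : Fin (n + 1) → ℕ) Fin.val_injective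
  have h2 := ((polyIndep_iff_linearIndependent hx).mpr hind).liftK (K := K)
  have h3 := Fintype.linearIndependent_iff.mp ((polyIndep_iff_linearIndependent hxK).mp h2)
    (fun i => Q.coeff (i : ℕ)) ?_
  · exact hQ0 (leadingCoeff_eq_zero.mp (h3 (Fin.last n)))
  · rw [aeval_eq_sum_range, Finset.sum_range] at hQy
    simp only [map_pow]
    exact hQy

theorem finiteDimensional_fullOverLine_descend {N n : ℕ} [NeZero N] (h : HasFullDegree K N n) :
    FiniteDimensional (jLine k) (fullOverLine k N) := by
  have := h.1
  have hfin : (divisorExpansionsC k N).Finite := by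
    refine ((Set.finite_le_nat N).image fun d : ℕ =>
      if hd : d = 0 then (0 : LaurentSeries k) else
        (haveI : NeZero d := ⟨hd⟩; ModularCurve.qExpand k d (jqModC k))).subset ?_
    rintro x ⟨d, hd, hdN, rfl⟩
    exact ⟨d, Nat.le_of_dvd (Nat.pos_of_ne_zero (NeZero.ne N)) hdN, by simp only [dif_neg hd.out]⟩
  have : Finite (divisorExpansionsC k N) := hfin.to_subtype
  refine IntermediateField.finiteDimensional_adjoin fun y hy => IsAlgebraic.isIntegral ?_
  refine isAlgebraic_of_liftK K aeval_jqModC_injective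
    (by rw [liftK_jqModC]; exact aeval_jqModC_injective) ?_
  have hmem : liftK k K y ∈ fullOverLine K N :=
    IntermediateField.subset_adjoin _ _ ((liftK_divisorExpansionsC K N).subset ⟨y, hy, rfl⟩)
  have halg : IsAlgebraic (jLine K) (liftK k K y) :=
    (isAlgebraic_algHom_iff (fullOverLine K N).val Subtype.val_injective).mpr
      (Algebra.IsAlgebraic.isAlgebraic (⟨_, hmem⟩ : fullOverLine K N))
  rw [liftK_jqModC]
  exact halg

theorem HasFullDegree.descend {N n : ℕ} [NeZero N] (h : HasFullDegree K N n) :
    HasFullDegree k N n := by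
  have := finiteDimensional_fullOverLine_descend (k := k) K h
  have h0 : HasFullDegree k N (Module.finrank (jLine k) (fullOverLine k N)) :=
    ⟨inferInstance, rfl⟩
  exact ⟨inferInstance, (HasFullDegree.extend k N K h0).2.symm.trans h.2⟩

end Descent

variable (N : ℕ) [NeZero N]

theorem hasFullDegree_rat : HasFullDegree ℚ N (Nat.card (Coset N)) :=
  HasFullDegree.descend (k := ℚ) ℂ (hasFullDegree_of_goodRed (goodRed_top N))

theorem hasFullDegree_zmod (ℓ : ℕ) [Fact ℓ.Prime] (hℓ : ¬ ℓ ∣ N) :
    HasFullDegree (ZMod ℓ) N (Nat.card (Coset N)) := by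
  obtain ⟨A, hA⟩ := exists_valuationSubring_complex ℓ
  have := charP_residueField ℓ hA
  let : Algebra (ZMod ℓ) (IsLocalRing.ResidueField A) := ZMod.algebra _ ℓ
  exact (hasFullDegree_of_goodRed (goodRed_residue ℓ hℓ hA)).descend (IsLocalRing.ResidueField A)

/-- The degree of the modular function field over the line, in characteristic prime to `N`. -/
theorem hasFullDegree (K : Type*) [Field K] (hN : (N : K) ≠ 0) :
    HasFullDegree K N (Nat.card (Coset N)) := by
  obtain ⟨p, hp⟩ := CharP.exists K
  rcases CharP.char_is_prime_or_zero K p with hprime | rfl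
  · have := Fact.mk hprime
    let : Algebra (ZMod p) K := ZMod.algebra K p
    exact HasFullDegree.extend (ZMod p) N K
      (hasFullDegree_zmod N p fun h => hN ((CharP.cast_eq_zero_iff K p N).mpr h))
  · have := CharP.charP_to_charZero K
    exact HasFullDegree.extend ℚ N K (hasFullDegree_rat N)

theorem natCard_coset : Nat.card (Coset N) = dedekindPsi N := Fermat.Agent.ModFun.natCard_coset N

end Fermat.Agent.Igusa

end
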