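import Fermat.Agent.Igusa.ResidueHom
import Fermat.Agent.Igusa.CuspUnit

/-!
# Reduction of the translates of modular functions with integral expansions at all cusps
-/

set_option autoImplicit false

noncomputable section

open UpperHalfPlane hiding I
open Polynomial
open scoped MatrixGroups

namespace Fermat.Agent.Igusa

open ModularCurve Fermat.Agent.ModFun

variable {k : Type*} [Field k] {V : Subring ℂ} {π : V →+* k}

variable (π) in
/-- `x` has coefficients in `V` and reduces to `y`. -/
def Red (x : LaurentSeries ℂ) (y : LaurentSeries k) : Prop :=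
  ∃ h : x ∈ serV V, redV π ⟨x, h⟩ = y

theorem red_coeffMap (z : LaurentSeries V) :
    Red π (coeffMap V.subtype z) (coeffMap π z) :=
  ⟨RingHom.mem_range.mpr ⟨z, rfl⟩, redV_of_eq _ z rfl⟩

theorem Red.exists_lift {x : LaurentSeries ℂ} {y : LaurentSeries k} (h : Red π x y) :
    ∃ z : LaurentSeries V, coeffMap V.subtype z = x ∧ coeffMap π z = y := by
  obtain ⟨hx, hy⟩ := h
  obtain ⟨z, hz⟩ := RingHom.mem_range.mp hx
  exact ⟨z, hz, by rw [← hy, redV_of_eq _ z hz.symm]⟩

theorem Red.mul {x x' : LaurentSeries ℂ} {y y' : LaurentSeries k} (h : Red π x y)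
    (h' : Red π x' y') : Red π (x * x') (y * y') := by
  obtain ⟨z, rfl, rfl⟩ := h.exists_lift
  obtain ⟨z', rfl, rfl⟩ := h'.exists_lift
  rw [← map_mul, ← map_mul]
  exact red_coeffMap _

theorem Red.add {x x' : LaurentSeries ℂ} {y y' : LaurentSeries k} (h : Red π x y)
    (h' : Red π x' y') : Red π (x + x') (y + y') := by
  obtain ⟨z, rfl, rfl⟩ := h.exists_lift
  obtain ⟨z', rfl, rfl⟩ := h'.exists_lift
  rw [← map_add, ← map_add]
  exact red_coeffMap _

theorem Red.pow {x : LaurentSeries ℂ} {y : LaurentSeries k} (h : Red π x y) (n : ℕ) :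
    Red π (x ^ n) (y ^ n) := by
  obtain ⟨z, rfl, rfl⟩ := h.exists_lift
  rw [← map_pow, ← map_pow]
  exact red_coeffMap _

theorem red_C (c : V) : Red π (HahnSeries.C (c : ℂ)) (HahnSeries.C (π c)) := by
  have h := red_coeffMap (π := π) (HahnSeries.single 0 c)
  rw [coeffMap_single, coeffMap_single] at h
  exact h

theorem Red.qExpand {x : LaurentSeries ℂ} {y : LaurentSeries k} (h : Red π x y) (n : ℕ)
    [NeZero n] : Red π (ModularCurve.qExpand ℂ n x) (ModularCurve.qExpand k n y) := by
  obtain ⟨z, rfl, rfl⟩ := h.exists_lift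
  rw [← coeffMap_qExpand, ← coeffMap_qExpand]
  exact red_coeffMap _

theorem red_jqModC : Red π (jqModC ℂ) (jqModC k) := by
  have h := red_coeffMap (π := π) (jqModC V)
  rwa [coeffMap_jqModC, coeffMap_jqModC] at h

theorem coeffMap_deltaSer {R S : Type*} [CommRing R] [CommRing S] (f : R →+* S) :
    coeffMap f (deltaSer R) = deltaSer S := by
  rw [deltaSer, deltaSer, coeffMap_ofPowerSeries, ← RingHom.comp_apply (PowerSeries.map f),
    ← PowerSeries.map_comp, RingHom.ext_int (f.comp (Int.castRingHom R)) (Int.castRingHom S)]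

theorem coeffMap_deltaInvSer {R S : Type*} [CommRing R] [CommRing S] (f : R →+* S) :
    coeffMap f (deltaInvSer R) = deltaInvSer S := by
  rw [deltaInvSer, deltaInvSer, map_mul, coeffMap_single, map_one, coeffMap_ofPowerSeries,
    ← RingHom.comp_apply (PowerSeries.map f),
    ← PowerSeries.map_comp, RingHom.ext_int (f.comp (Int.castRingHom R)) (Int.castRingHom S)]

theorem red_deltaSer : Red π (deltaSer ℂ) (deltaSer k) := by
  have h := red_coeffMap (π := π) (deltaSer V)
  rwa [coeffMap_deltaSer, coeffMap_deltaSer] at h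

theorem red_deltaInvSer : Red π (deltaInvSer ℂ) (deltaInvSer k) := by
  have h := red_coeffMap (π := π) (deltaInvSer V)
  rwa [coeffMap_deltaInvSer, coeffMap_deltaInvSer] at h

variable {N : ℕ}

theorem GoodRed.exists_unit (h : GoodRed N V π) {z : ℂˣ} (hz : (z : ℂ) ^ N = 1) :
    ∃ u : Vˣ, ((u : V) : ℂ) = z := by
  refine ⟨⟨⟨z, h.root_mem _ hz⟩, ⟨(z⁻¹ : ℂˣ), h.root_mem _ ?_⟩, ?_, ?_⟩, rfl⟩
  · rw [Units.val_inv_eq_inv_val, inv_pow, hz, inv_one]
  · exact Subtype.ext (Units.mul_inv z)
  · exact Subtype.ext (Units.inv_mul z)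

theorem Red.twist {x : LaurentSeries ℂ} {y : LaurentSeries k} (h : Red π x y) (u : Vˣ) :
    Red π (Fermat.Agent.ModFun.twist (Units.map (V.subtype : V →* ℂ) u) x)
      (Fermat.Agent.ModFun.twist (Units.map (π : V →* k) u) y) := by
  obtain ⟨z, rfl, rfl⟩ := h.exists_lift
  set w : LaurentSeries V := HahnSeries.mk (fun n => ((u ^ n : Vˣ) : V) * z.coeff n)
    (z.isPWO_support.mono fun n hn => by
      simp only [Function.mem_support, HahnSeries.mem_support, ne_eq] at hn ⊢
      exact fun h0 => hn (by rw [h0, mul_zero])) with hw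
  have h1 : coeffMap V.subtype w =
      Fermat.Agent.ModFun.twist (Units.map (V.subtype : V →* ℂ) u) (coeffMap V.subtype z) := by
    ext n
    rw [coeffMap_coeff, coeff_twist, coeffMap_coeff, hw, ← map_zpow, Units.coe_map]
    exact map_mul V.subtype _ _
  have h2 : coeffMap π w =
      Fermat.Agent.ModFun.twist (Units.map (π : V →* k) u) (coeffMap π z) := by
    ext n
    rw [coeffMap_coeff, coeff_twist, coeffMap_coeff, hw, ← map_zpow, Units.coe_map]
    exact map_mul π _ _
  rw [← h1, ← h2]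
  exact red_coeffMap w

variable [NeZero N]

variable (N V) in
/-- Elements of `Hol N` whose translates all have expansions with coefficients in `V`. -/
def intHol : Subring (Hol N) :=
  ⨅ c : Coset N, (serV V).comap ((laurentExp N).comp (tr N c)).toRingHom

theorem mem_intHol {g : Hol N} :
    g ∈ intHol V N ↔ ∀ c, laurentExp N (tr N c g) ∈ serV V := by
  rw [intHol, Subring.mem_iInf]
  rfl

variable (π) in
/-- The reduced expansion at the coset `c`. -/
def rCusp (c : Coset N) : intHol V N →+* LaurentSeries k :=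
  (redV π).comp
    ((((laurentExp N).comp (tr N c)).toRingHom.comp (intHol V N).subtype).codRestrict (serV V)
      fun g => mem_intHol.mp g.2 c)

theorem red_rCusp (g : intHol V N) (c : Coset N) :
    Red π (laurentExp N (tr N c g)) (rCusp π c g) :=
  ⟨mem_intHol.mp g.2 c, rfl⟩

theorem Red.unique {x : LaurentSeries ℂ} {y y' : LaurentSeries k} (h : Red π x y)
    (h' : Red π x y') : y = y' := by
  obtain ⟨_, rfl⟩ := h
  obtain ⟨_, rfl⟩ := h'
  rfl

/-- The reduced expansions of the translates of `j (dτ)` and of the units `Δ(dτ)/Δ(τ)`. -/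
theorem GoodRed.exists_red_expansion (h : GoodRed N V π) {d : ℕ} [NeZero d] (hd : d ∣ N)
    (c : Coset N) :
    ∃ (e E : ℕ) (_ : NeZero E) (u : Vˣ), e ∣ N ∧ (((u : V) : ℂ)) ^ N = 1 ∧
      E * d = N * Int.gcd (cuspC c) d ^ 2 ∧
      laurentExp N (tr N c (jd hd)) = ModularCurve.qExpand ℂ E
        (Fermat.Agent.ModFun.twist (Units.map (V.subtype : V →* ℂ) u) (jqModC ℂ)) ∧
      Red π (laurentExp N (tr N c (jd hd)))
        (ModularCurve.qExpand k E
          (Fermat.Agent.ModFun.twist (Units.map (π : V →* k) u) (jqModC k))) ∧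
      Red π (laurentExp N (tr N c (uHol hd)))
        (HahnSeries.C ((e : k) ^ 12)⁻¹ *
          ModularCurve.qExpand k E
            (Fermat.Agent.ModFun.twist (Units.map (π : V →* k) u) (deltaSer k)) *
          ModularCurve.qExpand k N (deltaInvSer k)) ∧
      Red π (laurentExp N (tr N c (uInvHol hd)))
        (HahnSeries.C ((e : k) ^ 12) *
          ModularCurve.qExpand k E
            (Fermat.Agent.ModFun.twist (Units.map (π : V →* k) u) (deltaInvSer k)) *
          ModularCurve.qExpand k N (deltaSer k)) := by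
  obtain ⟨e, E, hE, z, heN, hz, hEd, hj, hu, hv⟩ := exists_cusp_expansion hd c
  obtain ⟨u, huz⟩ := h.exists_unit hz
  have hzu : Units.map (V.subtype : V →* ℂ) u = z := Units.ext huz
  refine ⟨e, E, hE, u, heN, by rw [huz, hz], hEd, by rw [hj, hzu], ?_, ?_, ?_⟩
  · rw [hj, ← hzu]
    exact (red_jqModC.twist u).qExpand E
  · rw [hu, ← hzu]
    set w : V := ⟨((e : ℂ) ^ 12)⁻¹, by
      rw [← inv_pow]; exact pow_mem (h.natCast_inv_mem heN) 12⟩ with hw
    have he0 : (e : ℂ) ≠ 0 := by
      exact_mod_cast ne_zero_of_dvd_ne_zero (NeZero.ne N) heN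
    have hwπ : π w = ((e : k) ^ 12)⁻¹ := by
      refine eq_inv_of_mul_eq_one_left ?_
      rw [← map_natCast π, ← map_pow, ← map_mul, show w * ((e : V)) ^ 12 = 1 from
        Subtype.ext (by rw [hw]; push_cast; exact inv_mul_cancel₀ (pow_ne_zero _ he0)), map_one]
    rw [← hwπ]
    exact ((red_C w).mul ((red_deltaSer.twist u).qExpand E)).mul (red_deltaInvSer.qExpand N)
  · rw [hv, ← hzu]
    have hC : Red π (HahnSeries.C ((e : ℂ) ^ 12)) (HahnSeries.C ((e : k) ^ 12)) := by
      have := red_C (π := π) ((e : V) ^ 12)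
      simpa using this
    exact (hC.mul ((red_deltaInvSer.twist u).qExpand E)).mul (red_deltaSer.qExpand N)

theorem GoodRed.jd_mem (h : GoodRed N V π) {d : ℕ} [NeZero d] (hd : d ∣ N) :
    jd hd ∈ intHol V N := mem_intHol.mpr fun c => by
  obtain ⟨_, _, _, _, _, _, _, _, hj, _, _⟩ := h.exists_red_expansion hd c
  exact hj.1

theorem GoodRed.uHol_mem (h : GoodRed N V π) {d : ℕ} [NeZero d] (hd : d ∣ N) :
    uHol hd ∈ intHol V N := mem_intHol.mpr fun c => by
  obtain ⟨_, _, _, _, _, _, _, _, _, hu, _⟩ := h.exists_red_expansion hd c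
  exact hu.1

theorem GoodRed.uInvHol_mem (h : GoodRed N V π) {d : ℕ} [NeZero d] (hd : d ∣ N) :
    uInvHol hd ∈ intHol V N := mem_intHol.mpr fun c => by
  obtain ⟨_, _, _, _, _, _, _, _, _, _, hv⟩ := h.exists_red_expansion hd c
  exact hv.1

section Lift

theorem coeff_aeval_jqModC_complex (P : ℂ[X]) :
    (aeval (jqModC ℂ) P).coeff (-(P.natDegree : ℤ)) = P.leadingCoeff := by
  rw [aeval_def, algebraMap_laurent_eq_C]
  exact Fermat.Agent.ModFun.coeff_aeval_jqModC_neg_natDegree P

theorem coeff_mem_of_aeval_mem {P : ℂ[X]}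
    (hP : aeval (jqModC ℂ) P ∈ serV V) : ∀ i, P.coeff i ∈ V := by
  induction hn : P.natDegree using Nat.strong_induction_on generalizing P with
  | _ n ih =>
  have hlead : P.leadingCoeff ∈ V := by
    rw [← coeff_aeval_jqModC_complex P]
    exact coeff_mem_of_mem_serV hP _
  intro i
  rw [← P.eraseLead_add_C_mul_X_pow, coeff_add, coeff_C_mul_X_pow]
  refine add_mem ?_ (by split_ifs <;> [exact hlead; exact zero_mem _])
  rcases eq_or_ne P.eraseLead 0 with h0 | h0
  · rw [h0, coeff_zero]; exact zero_mem _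
  · refine ih _ ?_ ?_ rfl i
    · rw [← hn]
      rcases eraseLead_natDegree_lt_or_eraseLead_eq_zero P with h | h
      · exact h
      · exact absurd h h0
    · have h1 : aeval (jqModC ℂ) P.eraseLead =
          aeval (jqModC ℂ) P - aeval (jqModC ℂ) (C P.leadingCoeff * X ^ P.natDegree) := by
        rw [← map_sub]
        congr 1
        rw [eq_sub_iff_add_eq, P.eraseLead_add_C_mul_X_pow]
      rw [h1, map_mul, aeval_C, map_pow, aeval_X, algebraMap_laurent_eq_C]
      refine sub_mem hP (mul_mem (RingHom.mem_range.mpr ⟨HahnSeries.single 0 ⟨_, hlead⟩, ?_⟩)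
        (pow_mem (RingHom.mem_range.mpr ⟨jqModC V, coeffMap_jqModC _⟩) _))
      rw [coeffMap_single]
      rfl

end Lift

end Fermat.Agent.Igusa

end
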