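import Fermat.Agent.Igusa.CuspPoly
import Fermat.Agent.Igusa.SeriesOrder
import Fermat.Agent.Igusa.Gram

/-!
# All translates of `j(Nτ)` are conjugate over `k(j)` when `N ≠ 0` in `k`

The norm of every unit `Δ(dτ)/Δ(τ)` from the orbit is constant; the orders at infinity then give
`∑_{c ∈ S} gcd(c, d)² = d |S|` for all `d ∣ N`, which forces `S` to be everything.
-/

set_option autoImplicit false

noncomputable section

open UpperHalfPlane hiding I
open Polynomial CongruenceSubgroup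
open scoped MatrixGroups

namespace Fermat.Agent.Igusa

open ModularCurve Fermat.Agent.ModFun

variable {k : Type*} [Field k] {V : Subring ℂ} {π : V →+* k} {N : ℕ} [NeZero N]

theorem GoodRed.mem_one (h : GoodRed N V π) : jd (dvd_refl N) ∈ intHol V N := h.jd_mem _

/-- The reduced translates of `j (Nτ)`. -/
def vCusp (h : GoodRed N V π) (c : Coset N) : LaurentSeries k :=
  rCusp π c ⟨jd (dvd_refl N), h.mem_one⟩

theorem vCusp_injective (h : GoodRed N V π) : Function.Injective (vCusp h) := by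
  intro c c' hcc
  obtain ⟨e, E, hE, u, -, hu, -, hj, hred, -, -⟩ := h.exists_red_expansion (dvd_refl N) c
  obtain ⟨e', E', hE', u', -, hu', -, hj', hred', -, -⟩ := h.exists_red_expansion (dvd_refl N) c'
  have h1 : ModularCurve.qExpand k E (twist (Units.map (π : V →* k) u) (jqModC k)) =
      ModularCurve.qExpand k E' (twist (Units.map (π : V →* k) u') (jqModC k)) :=
    (hred.unique (red_rCusp ⟨_, h.mem_one⟩ c)).trans
      (hcc.trans ((red_rCusp ⟨_, h.mem_one⟩ c').unique hred'))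
  have hJ : jqModC k ≠ 0 := jqModC_ne_zero_of_nontrivial k
  have hEE : E = E' := by
    have h2 := congrArg HahnSeries.order h1
    rw [order_qExpand_twist _ hJ, order_qExpand_twist _ hJ, order_jqModC] at h2
    omega
  subst hEE
  have h3 : Units.map (π : V →* k) u = Units.map (π : V →* k) u' := by
    have h2 := congrArg (fun z => z.coeff ((E : ℤ) * -1)) h1
    simp only [qExpand_coeff_mul, coeff_twist, coeff_jqModC_neg_one, mul_one] at h2
    exact inv_injective (by simpa [zpow_neg, zpow_one] using Units.ext h2)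
  have h4 : u = u' := by
    rw [← inv_mul_eq_one]
    apply Units.ext
    refine h.eq_one_of_root ?_ ?_
    · have hpow : ∀ (w : Vˣ), ((w : V) : ℂ) ^ N = 1 → w ^ N = 1 := fun w hw =>
        Units.ext (Subtype.ext (by push_cast; exact hw))
      have h5 : (u⁻¹ * u') ^ N = 1 := by
        rw [mul_pow, inv_pow, hpow u hu, hpow u' hu', inv_one, one_mul]
      have h6 := congrArg (fun w : Vˣ => ((w : V) : ℂ)) h5
      push_cast at h6
      simpa using h6
    · have h5 : Units.map (π : V →* k) (u⁻¹ * u') = 1 := by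
        rw [map_mul, map_inv, h3, inv_mul_cancel]
      exact congrArg Units.val h5
  refine tr_jd_injective (laurentExp_injective N ?_)
  rw [hj, hj', h4]

/-- The class of the coset attached to a cusp. -/
def cuspG (c : Coset N) : ℕ := Int.gcd (cuspC c) N

theorem cuspG_mem (c : Coset N) : cuspG c ∈ N.divisors :=
  Nat.mem_divisors.mpr ⟨Nat.gcd_dvd_right _ _, NeZero.ne N⟩

omit [NeZero N] in
theorem gcd_cuspC {d : ℕ} (hd : d ∣ N) (c : Coset N) :
    Int.gcd (cuspC c) d = Nat.gcd (cuspG c) d := by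
  rw [cuspG, Int.gcd, Int.gcd, Int.natAbs_natCast, Int.natAbs_natCast, Nat.gcd_assoc,
    Nat.gcd_eq_right hd]

omit [NeZero N] in
theorem cuspG_eq_iff (c : Coset N) : cuspG c = N ↔ c = ((1 : SL(2, ℤ)) : Coset N) := by
  unfold cuspG
  have h1 : Int.gcd (cuspC c) N = N ↔ (N : ℤ) ∣ cuspC c := by
    constructor
    · intro h
      have h2 : ((Int.gcd (cuspC c) N : ℕ) : ℤ) ∣ cuspC c := Int.gcd_dvd_left _ _
      rwa [h] at h2
    · intro h
      exact Nat.dvd_antisymm (Nat.gcd_dvd_right _ _)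
        (Int.dvd_gcd h dvd_rfl)
  rw [h1, cuspC, ← ZMod.intCast_zmod_eq_zero_iff_dvd, ← Gamma0_mem, inv_mem_iff]
  constructor
  · intro h
    rw [← QuotientGroup.out_eq' c, QuotientGroup.eq, mul_one]
    exact inv_mem h
  · rintro rfl
    obtain ⟨g, hg⟩ := QuotientGroup.mk_out_eq_mul (Gamma0 N) (1 : SL(2, ℤ))
    rw [hg, one_mul]
    exact g.2

attribute [local instance] Fintype.ofFinite

theorem prod_univ_mem (g : intHol V N) :
    ∃ p, evLine k (jt k N) p = ∏ c : Coset N, rCusp π c g := by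
  have h := (lifts_iff_coeff_lifts _).mp (prod_rCusp_mem_lifts (π := π) g) 0
  obtain ⟨p, hp⟩ := h
  rw [coeff_zero_eq_eval_zero, eval_prod] at hp
  simp only [eval_sub, eval_X, eval_C, zero_sub, Finset.prod_neg, Finset.card_univ] at hp
  refine ⟨(-1) ^ Fintype.card (Coset N) * p, ?_⟩
  rw [map_mul, map_pow, map_neg, map_one, hp, ← mul_assoc, ← mul_pow, neg_one_mul, neg_neg,
    one_pow, one_mul]

/-- Sets over which all integral families have products in `k[j]`. -/
def BalancedSet (π : V →+* k) (S : Finset (Coset N)) : Prop :=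
  ∀ g : intHol V N, ∃ p, evLine k (jt k N) p = ∏ c ∈ S, rCusp π c g

theorem order_evLine_jt_le (p : k[X]) : (evLine k (jt k N) p).order ≤ 0 := by
  rw [evLine_jt]
  rcases eq_or_ne (aeval (jqModC k) p) 0 with h | h
  · rw [h, map_zero, HahnSeries.order_zero]
  · rw [order_qExpand h]
    exact mul_nonpos_of_nonneg_of_nonpos (Int.natCast_nonneg N) (order_aeval_jqModC_le p)

/-- The orders of the units over a balanced set sum to zero. -/
theorem BalancedSet.sum_gcd_sq (h : GoodRed N V π) {S : Finset (Coset N)}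
    (hS : BalancedSet π S) {d : ℕ} (hd : d ∈ N.divisors) :
    ∑ c ∈ S, ((Nat.gcd (cuspG c) d : ℕ) : ℚ) ^ 2 = (d : ℚ) * S.card := by
  obtain ⟨hdN, -⟩ := Nat.mem_divisors.mp hd
  have : NeZero d := ⟨(Nat.pos_of_mem_divisors hd).ne'⟩
  have hexp : ∀ c : Coset N, ∃ E : ℕ, E * d = N * Nat.gcd (cuspG c) d ^ 2 ∧
      (rCusp π c ⟨uHol hdN, h.uHol_mem hdN⟩).order = (E : ℤ) - N ∧
      rCusp π c ⟨uHol hdN, h.uHol_mem hdN⟩ ≠ 0 ∧
      (rCusp π c ⟨uInvHol hdN, h.uInvHol_mem hdN⟩).order = (N : ℤ) - E ∧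
      rCusp π c ⟨uInvHol hdN, h.uInvHol_mem hdN⟩ ≠ 0 := by
    intro c
    obtain ⟨e, E, hE, u, he, -, hEd, -, -, hu, hv⟩ := h.exists_red_expansion hdN c
    rw [gcd_cuspC hdN] at hEd
    have hek : ((e : k) ^ 12) ≠ 0 := pow_ne_zero _ (h.natCast_ne_zero he)
    obtain ⟨o1, n1⟩ := order_unit_expansion (inv_ne_zero hek) (Units.map (π : V →* k) u)
      deltaSer_ne_zero deltaInvSer_ne_zero E N
    obtain ⟨o2, n2⟩ := order_unit_expansion hek (Units.map (π : V →* k) u)
      deltaInvSer_ne_zero deltaSer_ne_zero E N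
    have hu' := hu.unique (red_rCusp ⟨uHol hdN, h.uHol_mem hdN⟩ c)
    have hv' := hv.unique (red_rCusp ⟨uInvHol hdN, h.uInvHol_mem hdN⟩ c)
    rw [hu'] at o1 n1
    rw [hv'] at o2 n2
    refine ⟨E, hEd, ?_, n1, ?_, n2⟩
    · rw [o1, order_deltaSer, order_deltaInvSer]; ring
    · rw [o2, order_deltaSer, order_deltaInvSer]; ring
  choose E hEd ho1 hn1 ho2 hn2 using hexp
  obtain ⟨p, hp⟩ := hS ⟨uHol hdN, h.uHol_mem hdN⟩
  obtain ⟨q, hq⟩ := hS ⟨uInvHol hdN, h.uInvHol_mem hdN⟩
  have h1 := order_evLine_jt_le (N := N) p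
  have h2 := order_evLine_jt_le (N := N) q
  rw [hp, order_prod S fun c _ => hn1 c] at h1
  rw [hq, order_prod S fun c _ => hn2 c] at h2
  simp only [ho1, ho2, Finset.sum_sub_distrib] at h1 h2
  have h3 : ∑ c ∈ S, (E c : ℤ) = ∑ c ∈ S, (N : ℤ) := le_antisymm (by linarith) (by linarith)
  have h4 : ∑ c ∈ S, (E c : ℚ) * d = ∑ c ∈ S, (N : ℚ) * d := by
    rw [← Finset.sum_mul, ← Finset.sum_mul]
    congr 1
    exact_mod_cast h3
  have h5 : ∀ c, (E c : ℚ) * d = (N : ℚ) * ((Nat.gcd (cuspG c) d : ℕ) : ℚ) ^ 2 := fun c => by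
    exact_mod_cast hEd c
  simp only [h5, ← Finset.mul_sum, Finset.sum_const, nsmul_eq_mul] at h4
  have hN : (N : ℚ) ≠ 0 := by exact_mod_cast NeZero.ne N
  refine mul_left_cancel₀ hN ?_
  rw [h4]; ring

theorem BalancedSet.eq_univ (h : GoodRed N V π) {S : Finset (Coset N)} (hS : BalancedSet π S)
    (hone : ((1 : SL(2, ℤ)) : Coset N) ∈ S) : S = Finset.univ := by
  classical
  have hU : BalancedSet π (Finset.univ : Finset (Coset N)) := fun g => prod_univ_mem g
  have hcard : (0 : ℚ) < (Finset.univ : Finset (Coset N)).card := by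
    exact_mod_cast Finset.card_pos.mpr ⟨_, Finset.mem_univ ((1 : SL(2, ℤ)) : Coset N)⟩
  set r : ℚ := (S.card : ℚ) / (Finset.univ : Finset (Coset N)).card with hr
  set z : ℕ → ℚ := fun e => ((S.filter fun c => cuspG c = e).card : ℚ) -
    r * ((Finset.univ.filter fun c : Coset N => cuspG c = e).card : ℚ) with hz
  have hfib : ∀ (T : Finset (Coset N)) (d : ℕ),
      ∑ e ∈ N.divisors, ((T.filter fun c => cuspG c = e).card : ℚ) * (Nat.gcd e d : ℚ) ^ 2 =
        ∑ c ∈ T, ((Nat.gcd (cuspG c) d : ℕ) : ℚ) ^ 2 := by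
    intro T d
    rw [← Finset.sum_fiberwise_of_maps_to (g := cuspG) (fun c _ => cuspG_mem c)]
    refine Finset.sum_congr rfl fun e _ => ?_
    rw [Finset.sum_congr rfl (fun c hc => by rw [(Finset.mem_filter.mp hc).2] :
      ∀ c ∈ T.filter (fun c => cuspG c = e), ((Nat.gcd (cuspG c) d : ℕ) : ℚ) ^ 2 =
        ((Nat.gcd e d : ℕ) : ℚ) ^ 2), Finset.sum_const, nsmul_eq_mul]
  have hz0 := eq_zero_of_sum_mul_gcd_sq (N := N) z (fun d hd => by
    simp only [hz, sub_mul, Finset.sum_sub_distrib, mul_assoc, ← Finset.mul_sum, hfib]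
    rw [hS.sum_gcd_sq h hd, hU.sum_gcd_sq h hd, hr]
    field_simp
    ring) N (Nat.mem_divisors_self N (NeZero.ne N))
  have hS1 : (S.filter fun c => cuspG c = N) = {((1 : SL(2, ℤ)) : Coset N)} := by
    ext c
    simp only [Finset.mem_filter, cuspG_eq_iff, Finset.mem_singleton]
    exact ⟨fun hc => hc.2, fun hc => ⟨hc ▸ hone, hc⟩⟩
  have hU1 : (Finset.univ.filter fun c : Coset N => cuspG c = N) =
      {((1 : SL(2, ℤ)) : Coset N)} := by
    ext c
    simp [cuspG_eq_iff]
  simp only [hz, hS1, hU1, Finset.card_singleton, Nat.cast_one, mul_one, sub_eq_zero] at hz0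
  rw [hr, eq_div_iff hcard.ne', one_mul] at hz0
  exact Finset.eq_of_subset_of_card_le (Finset.subset_univ S)
    (le_of_eq (by exact_mod_cast hz0))

/-- The minimal polynomial of `j_N(q)` over `k(j)` has all translates as roots. -/
theorem orbitData_univ (h : GoodRed N V π) :
    OrbitData k (jt k N) (vCusp h) ((1 : SL(2, ℤ)) : Coset N) Finset.univ := by
  obtain ⟨S, hS⟩ := exists_orbitData (k := k) (t := jt k N) (vCusp_injective h)
    ((1 : SL(2, ℤ)) : Coset N) (prod_rCusp_mem_lifts ⟨_, h.mem_one⟩)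
  have hbal : BalancedSet π S := fun g => hS.exists_prod_eq evLine_jt_injective
    (x := fun c => rCusp π c g) (interp_rCusp_mem_lifts g ⟨_, h.mem_one⟩)
    (prod_rCusp_mem_lifts g)
  exact hbal.eq_univ h hS.mem_self ▸ hS

theorem rCusp_one (g : intHol V N) {y : LaurentSeries k} (hy : Red π (qExp N (g : Hol N)) y) :
    rCusp π ((1 : SL(2, ℤ)) : Coset N) g = ModularCurve.qExpand k N y := by
  refine (red_rCusp g _).unique ?_
  have h1 : laurentExp N (tr N ((1 : SL(2, ℤ)) : Coset N) (g : Hol N)) =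
      ModularCurve.qExpand ℂ N (qExp N (g : Hol N)) :=
    laurentExp_width_one _ _ (funext fun τ => (tr_one _ τ).symm)
  rw [h1]
  exact hy.qExpand N

omit [NeZero N] in
theorem red_qExp_jd {d : ℕ} [NeZero d] (hd : d ∣ N) :
    Red π (qExp N (jd (N := N) hd)) (ModularCurve.qExpand k d (jqModC k)) := by
  rw [qExp_jd]
  exact red_jqModC.qExpand d

end Fermat.Agent.Igusa

end
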